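/-
GATE-H (S19) / CORE-ASM, part 1 (helper32): the GAL CONTRACT.

Abstract frame of `GH/Vocab.lean` in universe `0`, plus a group `Γ` (in the application `G_ℚ`) acting
on `Pic0 K F` additively and on `K` by ring automorphisms, with subgroups `I ≤ D` (inertia and
decomposition group of the valuation ring `R.A`).  `GalFrame` lists EXACTLY what node GAL has to
deliver for the modular frame; `GH/CoreAsm/Main.lean` consumes nothing else.
-/
import Mathlib
import Fermat.Agent.GH.Ord.Main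

set_option autoImplicit false

noncomputable section

open AlgebraicCurve

namespace Fermat.Agent.GH

open Fermat.Agent.RRh45 Fermat.Agent.GJ.S37MinDiv Fermat.Agent.GJ.J1 Fermat.Agent.GJ.S37LSpace
  Fermat.Agent.GJ.S37ROfSurj

variable {K F k Ft : Type} [Field K] [Field F] [Algebra K F] [Field k] [Field Ft] [Algebra k Ft]
variable {R : RedData K F k Ft} {g c : ℤ}
variable [FiniteResidues K F] [HasPrincipalDivisors K F] [Nonempty (Place K F)]
variable [FiniteResidues k Ft] [HasPrincipalDivisors k Ft] [Nonempty (Place k Ft)]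
variable [Infinite k]

/-- **The GAL contract.**  `D` acts on charts compatibly with coordinates; `I` moves classes only
inside the kernel of reduction; there is an `I`-fixed chart, the `I`-fixed charts are `D`-stable,
and every class has an `I`-fixed shift. -/
structure GalFrame (H : LSpaceHyp R g c) (n : ℕ) {Γ : Type} [Group Γ]
    [DistribMulAction Γ (Pic0 K F)] [MulSemiringAction Γ K] (D I : Subgroup Γ) where
  /-- `I ≤ D`. -/
  hID : I ≤ D
  /-- `I` is normalised by `D`. -/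
  hnorm : ∀ σ ∈ D, ∀ τ ∈ I, σ⁻¹ * τ * σ ∈ I
  /-- the kernel of reduction is `D`-stable. -/
  ker_smul : ∀ σ ∈ D, ∀ ξ ∈ KerRed H, σ • ξ ∈ KerRed H
  /-- inertia preserves every reduction class. -/
  inertia_sub : ∀ τ ∈ I, ∀ ξ : Pic0 K F, τ • ξ - ξ ∈ KerRed H
  /-- the action on charts. -/
  actC : Γ → Chart H n → Chart H n
  /-- coordinates are equivariant. -/
  isCoord_smul : ∀ σ ∈ D, ∀ (𝔠 : Chart H n) (ξ : Pic0 K F) (τ : Fin n → K),
    IsCoord 𝔠 ξ τ → IsCoord (actC σ 𝔠) (σ • ξ) (fun i => σ • τ i)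
  /-- the `I`-fixed charts. -/
  Fix : Chart H n → Prop
  exists_fix : ∃ 𝔠, Fix 𝔠
  fix_inertia : ∀ 𝔠, Fix 𝔠 → ∀ τ ∈ I, actC τ 𝔠 = 𝔠
  fix_smul : ∀ 𝔠, Fix 𝔠 → ∀ σ ∈ D, Fix (actC σ 𝔠)
  /-- every class has an `I`-fixed shift. -/
  exists_fixed_shift : ∀ ξ : Pic0 K F, ∃ s : Pic0 K F, (∀ τ ∈ I, τ • s = s) ∧ ξ - s ∈ KerRed H

end Fermat.Agent.GH
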