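/-
GATE-H (S19) / CORE-ASM, part 2 (helper32): `ord_main` + the GAL contract `GalFrame` give the
generator family consumed by the descent node (helper24 `exists_order_of_generators`):
`R.A`-valued, `I`-equivariant, `D`-stable as a set, separating, `Δ`-stable with `R.A`-coefficients.
-/
import Mathlib
import Fermat.Agent.GH.CoreAsm.GalFrame

set_option autoImplicit false
set_option linter.unusedSectionVars false

noncomputable section

open AlgebraicCurve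

namespace Fermat.Agent.GH

open Fermat.Agent.RRh45 Fermat.Agent.GJ.S37MinDiv Fermat.Agent.GJ.J1 Fermat.Agent.GJ.S37LSpace
  Fermat.Agent.GJ.S37ROfSurj

open scoped Classical

variable {K F k Ft : Type} [Field K] [Field F] [Algebra K F] [Field k] [Field Ft] [Algebra k Ft]
variable {R : RedData K F k Ft} {g c : ℤ}
variable [FiniteResidues K F] [HasPrincipalDivisors K F] [Nonempty (Place K F)]
variable [FiniteResidues k Ft] [HasPrincipalDivisors k Ft] [Nonempty (Place k Ft)]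
variable [Infinite k]
variable {H : LSpaceHyp R g c} {n : ℕ} {Γ : Type} [Group Γ]
  [DistribMulAction Γ (Pic0 K F)] [MulSemiringAction Γ K] {D I : Subgroup Γ}

section Act

variable {M : AddSubgroup (Pic0 K F)} (hM : ∀ (σ : Γ), ∀ x ∈ M, σ • x ∈ M)

/-- the restricted action of `Γ` on a stable subgroup. -/
def actM (σ : Γ) : M →+ M where
  toFun x := ⟨σ • (x : Pic0 K F), hM σ x x.2⟩
  map_zero' := Subtype.ext (smul_zero σ)
  map_add' x y := Subtype.ext (smul_add σ (x : Pic0 K F) y)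

@[simp] theorem coe_actM (σ : Γ) (x : M) : ((actM hM σ x : M) : Pic0 K F) = σ • (x : Pic0 K F) :=
  rfl

theorem actM_one (x : M) : actM hM (1 : Γ) x = x := Subtype.ext (one_smul Γ (x : Pic0 K F))

theorem actM_mul (σ τ : Γ) (x : M) : actM hM (σ * τ) x = actM hM σ (actM hM τ x) :=
  Subtype.ext (mul_smul σ τ (x : Pic0 K F))

theorem actM_inv_actM (σ : Γ) (x : M) : actM hM σ⁻¹ (actM hM σ x) = x := by
  rw [← actM_mul, inv_mul_cancel, actM_one]

theorem actM_actM_inv (σ : Γ) (x : M) : actM hM σ (actM hM σ⁻¹ x) = x := by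
  rw [← actM_mul, mul_inv_cancel, actM_one]

end Act

section Family

variable (G : GalFrame H n D I) (M : AddSubgroup (Pic0 K F))

/-- the generator family: all `gens` for an `I`-fixed chart and `I`-fixed shifts. -/
def coreGens : Set (M → K) :=
  {f | ∃ (𝔠₀ : Chart H n) (s : M ⧸ kerRedOf H M → Pic0 K F) (T : Fin n → M → K),
      G.Fix 𝔠₀ ∧ (∀ ω, ∀ τ ∈ I, τ • s ω = s ω) ∧
      (∀ x : M, (x : Pic0 K F) - s (QuotientAddGroup.mk x) ∈ KerRed H) ∧
      (∀ x : M, IsCoord 𝔠₀ ((x : Pic0 K F) - s (QuotientAddGroup.mk x)) (fun i => T i x)) ∧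
      f ∈ gens H M T}

variable {G M}

/-- existence of one datum. -/
theorem exists_datum (hco : CoordSpec H n) [Finite M] :
    ∃ (𝔠₀ : Chart H n) (s : M ⧸ kerRedOf H M → Pic0 K F) (T : Fin n → M → K),
      G.Fix 𝔠₀ ∧ (∀ ω, ∀ τ ∈ I, τ • s ω = s ω) ∧
      (∀ x : M, (x : Pic0 K F) - s (QuotientAddGroup.mk x) ∈ KerRed H) ∧
      (∀ x : M, IsCoord 𝔠₀ ((x : Pic0 K F) - s (QuotientAddGroup.mk x)) (fun i => T i x)) := by
  obtain ⟨𝔠₀, h𝔠₀⟩ := G.exists_fix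
  choose s hsfix hsker using fun ω : M ⧸ kerRedOf H M =>
    G.exists_fixed_shift ((Quotient.out ω : M) : Pic0 K F)
  have hs : ∀ x : M, (x : Pic0 K F) - s (QuotientAddGroup.mk x) ∈ KerRed H := by
    intro x
    have h1 : (QuotientAddGroup.mk x : M ⧸ kerRedOf H M) =
        QuotientAddGroup.mk (Quotient.out (QuotientAddGroup.mk x : M ⧸ kerRedOf H M)) :=
      (QuotientAddGroup.out_eq' _).symm
    have h2 := mk_eq_mk_iff.1 h1
    have h3 := add_mem_KerRed H h2 (hsker (QuotientAddGroup.mk x))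
    have h4 : (x : Pic0 K F) -
        ((Quotient.out (QuotientAddGroup.mk x : M ⧸ kerRedOf H M) : M) : Pic0 K F) +
        (((Quotient.out (QuotientAddGroup.mk x : M ⧸ kerRedOf H M) : M) : Pic0 K F) -
          s (QuotientAddGroup.mk x)) = (x : Pic0 K F) - s (QuotientAddGroup.mk x) := by abel
    rwa [h4] at h3
  choose T hT using fun x : M => (hco 𝔠₀ _ (hs x)).1
  exact ⟨𝔠₀, s, fun i x => T x i, h𝔠₀, hsfix, hs, hT⟩

end Family

section Core

variable (G : GalFrame H n D I) {M : AddSubgroup (Pic0 K F)} (hM : ∀ (σ : Γ), ∀ x ∈ M, σ • x ∈ M)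

/-- the map induced on cosets modulo the kernel of reduction by `σ ∈ D`. -/
def qmap (σ : Γ) (hσ : σ ∈ D) : (M ⧸ kerRedOf H M) →+ (M ⧸ kerRedOf H M) :=
  QuotientAddGroup.map _ _ (actM hM σ) (fun _ hx => G.ker_smul σ hσ _ hx)

theorem qmap_mk (σ : Γ) (hσ : σ ∈ D) (x : M) :
    qmap G hM σ hσ (QuotientAddGroup.mk x) = QuotientAddGroup.mk (actM hM σ x) := rfl

theorem qmap_qmap_inv (σ : Γ) (hσ : σ ∈ D) (ω : M ⧸ kerRedOf H M) :
    qmap G hM σ hσ (qmap G hM σ⁻¹ (D.inv_mem hσ) ω) = ω := by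
  obtain ⟨x, rfl⟩ := QuotientAddGroup.mk_surjective ω
  rw [qmap_mk, qmap_mk, actM_actM_inv]

theorem qmap_inv_qmap (σ : Γ) (hσ : σ ∈ D) (ω : M ⧸ kerRedOf H M) :
    qmap G hM σ⁻¹ (D.inv_mem hσ) (qmap G hM σ hσ ω) = ω := by
  obtain ⟨x, rfl⟩ := QuotientAddGroup.mk_surjective ω
  rw [qmap_mk, qmap_mk, actM_inv_actM]

include G in
/-- inertia fixes every coset. -/
theorem mk_actM_inertia (τ : Γ) (hτ : τ ∈ I) (x : M) :
    (QuotientAddGroup.mk (actM hM τ x) : M ⧸ kerRedOf H M) = QuotientAddGroup.mk x :=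
  mk_eq_mk_iff.2 (G.inertia_sub τ hτ _)

/-- **CORE-ASM.** -/
theorem core_asm (hco : CoordSpec H n) (hinj : CoordInj H n) (hsup : ChartSupply H n)
    (hadd : AddSpec H n) [Finite M] :
    (∀ f ∈ coreGens G M, ∀ x, f x ∈ R.A) ∧
    (∀ f ∈ coreGens G M, ∀ τ ∈ I, ∀ x, f (actM hM τ x) = τ • f x) ∧
    (∀ f ∈ coreGens G M, ∀ σ ∈ D, (fun x => σ • f (actM hM σ⁻¹ x)) ∈ coreGens G M) ∧
    (∀ x y : M, x ≠ y → ∃ f ∈ coreGens G M, f x ≠ f y) ∧
    (∀ f ∈ coreGens G M, ∃ (m : ℕ) (a b : Fin m → (M → K)),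
      (∀ i, a i ∈ Algebra.adjoin R.A (coreGens G M)) ∧
      (∀ i, b i ∈ Algebra.adjoin R.A (coreGens G M)) ∧
      ∀ x y, f (x + y) = ∑ i, a i x * b i y) := by
  have hsub : ∀ (𝔠₀ : Chart H n) (s : M ⧸ kerRedOf H M → Pic0 K F) (T : Fin n → M → K),
      G.Fix 𝔠₀ → (∀ ω, ∀ τ ∈ I, τ • s ω = s ω) →
      (∀ x : M, (x : Pic0 K F) - s (QuotientAddGroup.mk x) ∈ KerRed H) →
      (∀ x : M, IsCoord 𝔠₀ ((x : Pic0 K F) - s (QuotientAddGroup.mk x)) (fun i => T i x)) →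
      gens H M T ⊆ coreGens G M :=
    fun 𝔠₀ s T h1 h2 h3 h4 f hf => ⟨𝔠₀, s, T, h1, h2, h3, h4, hf⟩
  refine ⟨?_, ?_, ?_, ?_, ?_⟩
  · -- values
    rintro f ⟨𝔠₀, s, T, -, -, hs, hT, hf⟩ x
    exact (ord_main hco hinj hsup hadd s hs 𝔠₀ T hT).1 f hf x
  · -- inertia-equivariance
    rintro f ⟨𝔠₀, s, T, hfix, hsfix, hs, hT, hf⟩ τ hτ x
    rcases hf with ⟨i, rfl⟩ | ⟨ω, rfl⟩
    · have hmk := mk_actM_inertia G hM τ hτ x
      have h1 := hT (actM hM τ x)
      rw [hmk] at h1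
      have h2 := G.isCoord_smul τ (G.hID hτ) 𝔠₀ _ _ (hT x)
      rw [G.fix_inertia 𝔠₀ hfix τ hτ, smul_sub, hsfix _ τ hτ] at h2
      have h3 := (hco 𝔠₀ _ (hs (actM hM τ x))).2.1
      rw [hmk] at h3
      exact congrFun (h3 _ _ h1 h2) i
    · unfold indQ
      rw [mk_actM_inertia G hM τ hτ x]
      split_ifs
      · rw [smul_one]
      · rw [smul_zero]
  · -- D-stability
    rintro f ⟨𝔠₀, s, T, hfix, hsfix, hs, hT, hf⟩ σ hσ
    have hσi : σ⁻¹ ∈ D := D.inv_mem hσ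
    set s' : M ⧸ kerRedOf H M → Pic0 K F := fun ω => σ • s (qmap G hM σ⁻¹ hσi ω) with hs'd
    set T' : Fin n → M → K := fun i x => σ • T i (actM hM σ⁻¹ x) with hT'd
    have hcls : ∀ x : M, (x : Pic0 K F) - s' (QuotientAddGroup.mk x) =
        σ • (((actM hM σ⁻¹ x : M) : Pic0 K F) - s (QuotientAddGroup.mk (actM hM σ⁻¹ x))) := by
      intro x
      rw [hs'd]
      simp only [qmap_mk]
      rw [smul_sub, coe_actM, smul_inv_smul]
    have hs'fix : ∀ ω, ∀ τ ∈ I, τ • s' ω = s' ω := by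
      intro ω τ hτ
      rw [hs'd]
      simp only
      have h1 := hsfix (qmap G hM σ⁻¹ hσi ω) (σ⁻¹ * τ * σ) (G.hnorm σ hσ τ hτ)
      calc τ • σ • s (qmap G hM σ⁻¹ hσi ω)
          = σ • ((σ⁻¹ * τ * σ) • s (qmap G hM σ⁻¹ hσi ω)) := by
            rw [← mul_smul, ← mul_smul, ← mul_assoc, ← mul_assoc, mul_inv_cancel, one_mul]
        _ = σ • s (qmap G hM σ⁻¹ hσi ω) := by rw [h1]
    have hs' : ∀ x : M, (x : Pic0 K F) - s' (QuotientAddGroup.mk x) ∈ KerRed H := by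
      intro x
      rw [hcls x]
      exact G.ker_smul σ hσ _ (hs _)
    have hT' : ∀ x : M, IsCoord (G.actC σ 𝔠₀) ((x : Pic0 K F) - s' (QuotientAddGroup.mk x))
        (fun i => T' i x) := by
      intro x
      rw [hcls x]
      exact G.isCoord_smul σ hσ 𝔠₀ _ _ (hT (actM hM σ⁻¹ x))
    refine ⟨G.actC σ 𝔠₀, s', T', G.fix_smul 𝔠₀ hfix σ hσ, hs'fix, hs', hT', ?_⟩
    rcases hf with ⟨i, rfl⟩ | ⟨ω, rfl⟩
    · exact Or.inl ⟨i, rfl⟩
    · refine Or.inr ⟨qmap G hM σ hσ ω, ?_⟩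
      funext x
      unfold indQ
      have hiff : (QuotientAddGroup.mk x : M ⧸ kerRedOf H M) = qmap G hM σ hσ ω ↔
          (QuotientAddGroup.mk (actM hM σ⁻¹ x) : M ⧸ kerRedOf H M) = ω := by
        constructor
        · intro h
          have := congrArg (qmap G hM σ⁻¹ hσi) h
          rwa [qmap_mk, qmap_inv_qmap] at this
        · intro h
          have := congrArg (qmap G hM σ hσ) h
          rwa [qmap_mk, actM_actM_inv] at this
      by_cases hx : (QuotientAddGroup.mk (actM hM σ⁻¹ x) : M ⧸ kerRedOf H M) = ω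
      · rw [if_pos (hiff.2 hx), if_pos hx, smul_one]
      · rw [if_neg (fun h => hx (hiff.1 h)), if_neg hx, smul_zero]
  · -- separation
    intro x y hxy
    obtain ⟨𝔠₀, s, T, h1, h2, h3, h4⟩ := exists_datum (G := G) (M := M) hco
    obtain ⟨f, hf, hne⟩ := (ord_main hco hinj hsup hadd s h3 𝔠₀ T h4).2.1 x y hxy
    exact ⟨f, hsub 𝔠₀ s T h1 h2 h3 h4 hf, hne⟩
  · -- Δ
    rintro f ⟨𝔠₀, s, T, hfix, hsfix, hs, hT, hf⟩
    have h1 := (ord_main hco hinj hsup hadd s hs 𝔠₀ T hT).2.2 f (Algebra.subset_adjoin hf)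
    obtain ⟨m, a, b, ha, hb, hab⟩ := exists_fin_of_mem_tens h1
    have hmono : Algebra.adjoin R.A (gens H M T) ≤ Algebra.adjoin R.A (coreGens G M) :=
      Algebra.adjoin_mono (hsub 𝔠₀ s T hfix hsfix hs hT)
    exact ⟨m, a, b, fun i => hmono (ha i), fun i => hmono (hb i), fun x y => hab x y⟩

end Core

end Fermat.Agent.GH
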